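/-
S56, wall W3a (helper67), file 1: the abstract counting lemma behind `localBound_TW`.

`G` a group with a level structure `𝓤`, `M` a finite `k`-representation (`char k = p`), `φ ∈ G`
("Frobenius"), `I ⊆ G` ("inertia") acting trivially on `M`, such that
* `G` is generated by `φ` and `I` modulo every level (`hgen`),
* tame inertia (`htame`): for every homomorphism `χ` of `G` trivial on a level whose values on `I`
  have order prime to `q`, `χ(I)` is contained in a cyclic group generated by some `χ τ₀`, `τ₀ ∈ I`,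
  and `χ (φ τ φ⁻¹) = χ τ ^ q`,
* `q = 1` in `k`.
Then `H¹(G, M)` (level-constant cocycles modulo coboundaries) is finite with at most
`#ker(φ - 1) · #coker(φ - 1)` elements.

Proof: a finite family of cocycles `c_i` defines the affine action `x ↦ g x + c(g)` of `G` on
`ι → M`; inertia acts by translations (order `p`), so tameness gives one `τ₀` for the whole family,
and the class of `c_i` is determined by `(c_i τ₀, c_i φ mod (φ - 1))`.
-/
import Fermat.Agent.F4.SM.Levels

set_option autoImplicit false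

open groupCohomology

namespace Fermat.Agent.S56.TWCount

open Fermat.Agent.F4

variable {k G : Type} [Field k] [Group G] {𝓤 : Levels G} {M : Rep.{0} k G}

/-- A finite family of levels has a common lower bound. -/
theorem exists_level_le {ι : Type} [Finite ι] (U : ι → Subgroup G) (hU : ∀ i, U i ∈ 𝓤.sets) :
    ∃ W ∈ 𝓤.sets, ∀ i, W ≤ U i := by
  classical
  have key : ∀ s : Finset ι, ∃ W ∈ 𝓤.sets, ∀ i ∈ s, W ≤ U i := by
    intro s
    induction s using Finset.induction_on with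
    | empty =>
      obtain ⟨W, hW⟩ := 𝓤.nonempty
      exact ⟨W, hW, fun i hi => absurd hi (Finset.notMem_empty i)⟩
    | insert a s _ ih =>
      obtain ⟨W, hW, hWs⟩ := ih
      obtain ⟨W', hW', hle⟩ := 𝓤.directed W hW (U a) (hU a)
      refine ⟨W', hW', fun i hi => ?_⟩
      rcases Finset.mem_insert.1 hi with rfl | hi
      · exact hle.trans inf_le_right
      · exact (hle.trans inf_le_left).trans (hWs i hi)
  cases nonempty_fintype ι
  obtain ⟨W, hW, h⟩ := key Finset.univ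
  exact ⟨W, hW, fun i => h i (Finset.mem_univ i)⟩

/-- The cocycle identity. -/
theorem coc_mul {f : G → M} (hf : f ∈ cocycles₁ M) (g h : G) :
    f (g * h) = M.ρ g (f h) + f g :=
  (mem_cocycles₁_iff f).1 hf g h

theorem coc_one {f : G → M} (hf : f ∈ cocycles₁ M) : f 1 = 0 :=
  cocycles₁_map_one ⟨f, hf⟩

theorem coc_inv {f : G → M} (hf : f ∈ cocycles₁ M) (g : G) : M.ρ g (f g⁻¹) = -f g :=
  cocycles₁_map_inv ⟨f, hf⟩ g

/-- A cocycle vanishing at `φ` vanishes at all powers of `φ`. -/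
theorem coc_pow_eq_zero {f : G → M} (hf : f ∈ cocycles₁ M) {φ : G} (h : f φ = 0) (n : ℕ) :
    f (φ ^ n) = 0 := by
  induction n with
  | zero => rw [pow_zero]; exact coc_one hf
  | succ n ih => rw [pow_succ, coc_mul hf, h, map_zero, ih, add_zero]

/-- Conjugation formula for a cocycle at an element acting trivially. -/
theorem coc_conj {f : G → M} (hf : f ∈ cocycles₁ M) (φ τ : G) (hτ : ∀ m : M, M.ρ τ m = m) :
    f (φ * τ * φ⁻¹) = M.ρ φ (f τ) := by
  rw [mul_assoc, coc_mul hf φ (τ * φ⁻¹), coc_mul hf τ φ⁻¹, hτ, map_add, coc_inv hf φ]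
  abel

/-- The affine action on `ι → M` attached to a family of cocycles. -/
noncomputable def affPerm {ι : Type} (c : ι → G → M) (hc : ∀ i, c i ∈ cocycles₁ M) :
    G →* Equiv.Perm (ι → M) where
  toFun g :=
    { toFun := fun x i => M.ρ g (x i) + c i g
      invFun := fun x i => M.ρ g⁻¹ (x i) + c i g⁻¹
      left_inv := fun x => by
        funext i
        show M.ρ g⁻¹ (M.ρ g (x i) + c i g) + c i g⁻¹ = x i
        have h1 : M.ρ g⁻¹ (M.ρ g (x i)) = x i := by
          rw [← Module.End.mul_apply, ← map_mul, inv_mul_cancel, map_one, Module.End.one_apply]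
        have h2 : M.ρ g⁻¹ (c i g) + c i g⁻¹ = 0 := by
          rw [← coc_mul (hc i) g⁻¹ g, inv_mul_cancel, coc_one (hc i)]
        rw [map_add, h1, add_assoc, h2, add_zero]
      right_inv := fun x => by
        funext i
        show M.ρ g (M.ρ g⁻¹ (x i) + c i g⁻¹) + c i g = x i
        have h1 : M.ρ g (M.ρ g⁻¹ (x i)) = x i := by
          rw [← Module.End.mul_apply, ← map_mul, mul_inv_cancel, map_one, Module.End.one_apply]
        have h2 : M.ρ g (c i g⁻¹) + c i g = 0 := by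
          rw [← coc_mul (hc i) g g⁻¹, mul_inv_cancel, coc_one (hc i)]
        rw [map_add, h1, add_assoc, h2, add_zero] }
  map_one' := by
    ext x i
    show M.ρ 1 (x i) + c i 1 = x i
    rw [map_one, Module.End.one_apply, coc_one (hc i), add_zero]
  map_mul' g h := by
    ext x i
    show M.ρ (g * h) (x i) + c i (g * h) = M.ρ g (M.ρ h (x i) + c i h) + c i g
    rw [map_mul, Module.End.mul_apply, coc_mul (hc i), map_add, add_assoc]

theorem affPerm_apply {ι : Type} (c : ι → G → M) (hc : ∀ i, c i ∈ cocycles₁ M) (g : G)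
    (x : ι → M) (i : ι) : affPerm c hc g x i = M.ρ g (x i) + c i g := rfl

/-- Powers of a translation. -/
theorem affPerm_pow_apply {ι : Type} (c : ι → G → M) (hc : ∀ i, c i ∈ cocycles₁ M) (τ : G)
    (hτ : ∀ m : M, M.ρ τ m = m) (n : ℕ) (x : ι → M) (i : ι) :
    (affPerm c hc τ ^ n) x i = x i + n • c i τ := by
  induction n generalizing x with
  | zero => simp
  | succ n ih =>
    rw [pow_succ, Equiv.Perm.mul_apply, ih, affPerm_apply, hτ, succ_nsmul]
    abel

theorem natCast_smul_eq_zero {p : ℕ} (hpk : (p : k) = 0) (m : M) : p • m = 0 := by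
  rw [← Nat.cast_smul_eq_nsmul k, hpk, zero_smul]

theorem natCast_smul_eq_self {q : ℕ} (hqk : (q : k) = 1) (m : M) : q • m = m := by
  rw [← Nat.cast_smul_eq_nsmul k, hqk, one_smul]

/-- **The counting lemma**: every finite set of classes has at most
`#ker(φ - 1) · #coker(φ - 1)` elements. -/
theorem finset_card_le [Finite M] {p q : ℕ} (hp : p.Prime) (hpq : p.Coprime q)
    (hpk : (p : k) = 0) (hqk : (q : k) = 1) (I : Set G) (φ : G)
    (hI : ∀ τ ∈ I, ∀ m : M, M.ρ τ m = m)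
    (hsm : ∃ U ∈ 𝓤.sets, ∀ g ∈ U, ∀ m : M, M.ρ g m = m)
    (hgen : ∀ U ∈ 𝓤.sets, ∀ g : G, ∃ (n : ℕ) (τ : G), τ ∈ I ∧ g⁻¹ * (φ ^ n * τ) ∈ U)
    (htame : ∀ (H : Type) [Group H] (χ : G →* H), (∃ U ∈ 𝓤.sets, U ≤ χ.ker) →
      (∀ σ ∈ I, (orderOf (χ σ)).Coprime q) →
      (∃ τ₀ ∈ I, ∀ σ ∈ I, ∃ n : ℕ, χ σ = χ τ₀ ^ n) ∧ ∀ τ ∈ I, χ (φ * τ * φ⁻¹) = χ τ ^ q)
    (s : Finset (H1sm 𝓤 M)) :
    s.card ≤ Nat.card (LinearMap.ker (M.ρ φ - 1)) *
      Nat.card (M.V ⧸ LinearMap.range (M.ρ φ - 1)) := by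
  classical
  -- representatives
  have hsurj : ∀ x : H1sm 𝓤 M, ∃ z : ↥(Z1 𝓤 M), H1smπ 𝓤 M z = x :=
    Submodule.mkQ_surjective _
  choose z hz using hsurj
  let c : ↥s → G → M := fun i => (z i.1).1
  have hc : ∀ i, c i ∈ cocycles₁ M := fun i => (z i.1).2.1
  have hlc : ∀ i, IsLC₁ 𝓤 (c i) := fun i => (z i.1).2.2
  choose U hU hUc using hlc
  obtain ⟨U₀, hU₀, hU₀M⟩ := hsm
  -- a common level
  obtain ⟨W, hW, hWle⟩ := exists_level_le (𝓤 := 𝓤) (fun o : Option ↥s => o.elim U₀ U)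
    (fun o => by cases o with
      | none => exact hU₀
      | some i => exact hU i)
  have hWM : ∀ g ∈ W, ∀ m : M, M.ρ g m = m := fun g hg => hU₀M g (hWle none hg)
  have hWc : ∀ i, ∀ g ∈ W, c i g = 0 := by
    intro i g hg
    have := hUc i 1 g (hWle (some i) hg)
    rw [one_mul] at this
    rw [this]
    exact coc_one (hc i)
  set χ := affPerm c hc with hχ
  have hlev : ∃ V ∈ 𝓤.sets, V ≤ χ.ker := by
    refine ⟨W, hW, fun g hg => ?_⟩
    rw [MonoidHom.mem_ker]
    ext x i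
    rw [hχ, affPerm_apply, hWM g hg, hWc i g hg, add_zero]
    rfl
  have hcop : ∀ σ ∈ I, (orderOf (χ σ)).Coprime q := by
    intro σ hσ
    have h1 : χ σ ^ p = 1 := by
      ext x i
      rw [hχ, affPerm_pow_apply c hc σ (hI σ hσ), natCast_smul_eq_zero hpk, add_zero]
      rfl
    have h2 : orderOf (χ σ) ∣ p := orderOf_dvd_of_pow_eq_one h1
    exact Nat.Coprime.coprime_dvd_left h2 hpq
  obtain ⟨⟨τ₀, hτ₀, hcyc⟩, hconj⟩ := htame _ χ hlev hcop
  -- consequences for the cocycles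
  have hcyc' : ∀ σ ∈ I, ∃ n : ℕ, ∀ i, c i σ = n • c i τ₀ := by
    intro σ hσ
    obtain ⟨n, hn⟩ := hcyc σ hσ
    refine ⟨n, fun i => ?_⟩
    have h1 : (χ σ) 0 i = (χ τ₀ ^ n) 0 i := by rw [hn]
    rw [hχ, affPerm_pow_apply c hc τ₀ (hI τ₀ hτ₀), affPerm_apply] at h1
    simpa using h1
  have hfix : ∀ i, M.ρ φ (c i τ₀) = c i τ₀ := by
    intro i
    have h1 : (χ (φ * τ₀ * φ⁻¹)) 0 i = (χ τ₀ ^ q) 0 i := by rw [hconj τ₀ hτ₀]
    rw [hχ, affPerm_pow_apply c hc τ₀ (hI τ₀ hτ₀), affPerm_apply,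
      coc_conj (hc i) φ τ₀ (hI τ₀ hτ₀), natCast_smul_eq_self hqk] at h1
    simpa using h1
  -- the separating map
  let E : ↥s → ↥(LinearMap.ker (M.ρ φ - 1)) × (M.V ⧸ LinearMap.range (M.ρ φ - 1)) :=
    fun i => (⟨c i τ₀, by
      rw [LinearMap.mem_ker, LinearMap.sub_apply, hfix i, Module.End.one_apply, sub_self]⟩,
      Submodule.Quotient.mk (c i φ))
  have hE : Function.Injective E := by
    intro i j hij
    have h1 : c i τ₀ = c j τ₀ := congrArg Subtype.val (congrArg Prod.fst hij)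
    have h2 : c i φ - c j φ ∈ LinearMap.range (M.ρ φ - 1) := by
      rw [← Submodule.Quotient.eq]
      exact congrArg Prod.snd hij
    obtain ⟨m, hm⟩ := h2
    rw [LinearMap.sub_apply, Module.End.one_apply] at hm
    -- the difference cocycle
    set d : G → M := fun g => c i g - c j g - (M.ρ g m - m) with hd
    have hdcoc : d ∈ cocycles₁ M := by
      have h3 : d = c i - c j - (d₀₁ M).hom m := by
        funext g
        rfl
      rw [h3]
      exact Submodule.sub_mem _ (Submodule.sub_mem _ (hc i) (hc j)) (d₀₁_apply_mem_cocycles₁ m)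
    have hdφ : d φ = 0 := by
      rw [hd]
      simp only
      rw [hm, sub_self]
    have hdI : ∀ τ ∈ I, d τ = 0 := by
      intro τ hτ
      obtain ⟨n, hn⟩ := hcyc' τ hτ
      rw [hd]
      simp only
      rw [hn i, hn j, h1, hI τ hτ, sub_self, sub_self, sub_zero]
    have hdW : ∀ g ∈ W, d g = 0 := by
      intro g hg
      rw [hd]
      simp only
      rw [hWc i g hg, hWc j g hg, hWM g hg, sub_self, sub_self, sub_zero]
    have hdall : ∀ g : G, d g = 0 := by
      intro g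
      obtain ⟨n, τ, hτ, hw⟩ := hgen W hW g
      set w := g⁻¹ * (φ ^ n * τ) with hwdef
      have e1 : φ ^ n * τ = g * w := by rw [hwdef]; group
      have e2 : d (φ ^ n * τ) = 0 := by
        rw [coc_mul hdcoc, hdI τ hτ, map_zero, coc_pow_eq_zero hdcoc hdφ, add_zero]
      rw [e1, coc_mul hdcoc, hdW w hw, map_zero, zero_add] at e2
      exact e2
    -- hence the classes agree
    have h4 : (z i.1 - z j.1 : ↥(Z1 𝓤 M)) ∈ (B1 M).comap (Z1 𝓤 M).subtype := by
      rw [Submodule.mem_comap]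
      refine ⟨m, ?_⟩
      funext g
      have := hdall g
      rw [hd] at this
      simp only at this
      have e : ((Z1 𝓤 M).subtype (z i.1 - z j.1)) g = c i g - c j g := rfl
      rw [e]
      show M.ρ g m - m = c i g - c j g
      exact (sub_eq_zero.mp this).symm
    have h5 : H1smπ 𝓤 M (z i.1) = H1smπ 𝓤 M (z j.1) := by
      rw [← sub_eq_zero, ← map_sub]
      exact (Submodule.Quotient.mk_eq_zero _).2 h4
    rw [hz, hz] at h5
    exact Subtype.ext h5
  have hfinM : Finite M.V := ‹Finite M›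
  haveI : Finite (M.V ⧸ LinearMap.range (M.ρ φ - 1)) :=
    Finite.of_surjective _ (Submodule.mkQ_surjective _)
  haveI : Finite ↥(LinearMap.ker (M.ρ φ - 1)) := Subtype.finite
  have := Nat.card_le_card_of_injective E hE
  rw [Nat.card_prod, Nat.card_eq_fintype_card, Fintype.card_coe] at this
  exact this

/-- **The counting lemma**, cardinality form. -/
theorem card_H1sm_le [Finite M] {p q : ℕ} (hp : p.Prime) (hpq : p.Coprime q)
    (hpk : (p : k) = 0) (hqk : (q : k) = 1) (I : Set G) (φ : G)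
    (hI : ∀ τ ∈ I, ∀ m : M, M.ρ τ m = m)
    (hsm : ∃ U ∈ 𝓤.sets, ∀ g ∈ U, ∀ m : M, M.ρ g m = m)
    (hgen : ∀ U ∈ 𝓤.sets, ∀ g : G, ∃ (n : ℕ) (τ : G), τ ∈ I ∧ g⁻¹ * (φ ^ n * τ) ∈ U)
    (htame : ∀ (H : Type) [Group H] (χ : G →* H), (∃ U ∈ 𝓤.sets, U ≤ χ.ker) →
      (∀ σ ∈ I, (orderOf (χ σ)).Coprime q) →
      (∃ τ₀ ∈ I, ∀ σ ∈ I, ∃ n : ℕ, χ σ = χ τ₀ ^ n) ∧ ∀ τ ∈ I, χ (φ * τ * φ⁻¹) = χ τ ^ q) :
    Finite (H1sm 𝓤 M) ∧
      Nat.card (H1sm 𝓤 M) ≤ Nat.card (LinearMap.ker (M.ρ φ - 1)) *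
        Nat.card (M.V ⧸ LinearMap.range (M.ρ φ - 1)) := by
  have key := finset_card_le (𝓤 := 𝓤) (M := M) hp hpq hpk hqk I φ hI hsm hgen htame
  have hfin : Fintype (H1sm 𝓤 M) := fintypeOfFinsetCardLe _ key
  refine ⟨Finite.of_fintype _, ?_⟩
  rw [Nat.card_eq_fintype_card]
  exact key Finset.univ

end Fermat.Agent.S56.TWCount
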