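/-
S56, wall W3a (helper67), file 2: linear algebra.

* `exists_eigenbasis` : an endomorphism of a plane with characteristic polynomial
  `(X - α)(X - β)`, `α ≠ β`, has an eigenbasis;
* `exists_line_of_commute` : the trace-zero endomorphisms commuting with it form (at most) a line;
* `card_ker_eq_card_quot_range` : `#ker T = #coker T` for an endomorphism of a finite module.
-/
import Mathlib

set_option autoImplicit false

open Polynomial Module

namespace Fermat.Agent.S56.TWLin

variable {k V : Type} [Field k] [AddCommGroup V] [Module k V]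

theorem exists_eigenbasis [Module.Finite k V] (hV : Module.finrank k V = 2)
    (f : Module.End k V) {α β : k}
    (hαβ : α ≠ β) (hf : LinearMap.charpoly f = (X - C α) * (X - C β)) :
    ∃ b : Basis (Fin 2) k V, f (b 0) = α • b 0 ∧ f (b 1) = β • b 1 := by
  have hα : f.HasEigenvalue α := by
    rw [Module.End.hasEigenvalue_iff_isRoot_charpoly, hf]
    simp
  have hβ : f.HasEigenvalue β := by
    rw [Module.End.hasEigenvalue_iff_isRoot_charpoly, hf]
    simp
  obtain ⟨v, hv⟩ := hα.exists_hasEigenvector
  obtain ⟨w, hw⟩ := hβ.exists_hasEigenvector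
  have hli : LinearIndependent k ![v, w] := by
    refine Module.End.eigenvectors_linearIndependent' f ![α, β] ?_ ![v, w] ?_
    · intro i j h
      fin_cases i <;> fin_cases j <;> simp_all
    · intro i
      fin_cases i
      · exact hv
      · exact hw
  let b := basisOfLinearIndependentOfCardEqFinrank hli (by simp [hV])
  have hb0 : b 0 = v := by simp [b]
  have hb1 : b 1 = w := by simp [b]
  refine ⟨b, ?_, ?_⟩
  · rw [hb0]
    exact hv.apply_eq_smul
  · rw [hb1]
    exact hw.apply_eq_smul

theorem repr_comb_zero (b : Basis (Fin 2) k V) (c0 c1 : k) :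
    b.repr (c0 • b 0 + c1 • b 1) 0 = c0 := by
  simp [Finsupp.single_apply]

theorem repr_comb_one (b : Basis (Fin 2) k V) (c0 c1 : k) :
    b.repr (c0 • b 0 + c1 • b 1) 1 = c1 := by
  simp [Finsupp.single_apply]

/-- In an eigenbasis for distinct eigenvalues, an endomorphism commuting with `f` is diagonal. -/
theorem diag_of_commute (f g : Module.End k V) {α β : k} (hαβ : α ≠ β)
    (b : Basis (Fin 2) k V) (h0 : f (b 0) = α • b 0) (h1 : f (b 1) = β • b 1)
    (hcomm : f * g = g * f) :
    g (b 0) = b.repr (g (b 0)) 0 • b 0 ∧ g (b 1) = b.repr (g (b 1)) 1 • b 1 := by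
  have hsum : ∀ x : V, x = b.repr x 0 • b 0 + b.repr x 1 • b 1 := by
    intro x
    conv_lhs => rw [← b.sum_repr x]
    rw [Fin.sum_univ_two]
  have hcomm' : ∀ x, f (g x) = g (f x) := fun x => by
    rw [← Module.End.mul_apply, hcomm, Module.End.mul_apply]
  have hfx : ∀ x : V, f x = (b.repr x 0 * α) • b 0 + (b.repr x 1 * β) • b 1 := by
    intro x
    conv_lhs => rw [hsum x]
    rw [map_add, map_smul, map_smul, h0, h1, smul_smul, smul_smul]
  constructor
  · -- coefficient of `b 1` in `g (b 0)` vanishes
    have e1 : f (g (b 0)) = α • g (b 0) := by rw [hcomm', h0, map_smul]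
    have e2 : b.repr (f (g (b 0))) 1 = b.repr (α • g (b 0)) 1 := by rw [e1]
    rw [hfx (g (b 0)), repr_comb_one, map_smul, Finsupp.smul_apply, smul_eq_mul] at e2
    have e3 : b.repr (g (b 0)) 1 = 0 := by
      have e4 : (β - α) * b.repr (g (b 0)) 1 = 0 := by
        rw [sub_mul, ← e2, mul_comm, sub_self]
      rcases mul_eq_zero.1 e4 with h | h
      · exact absurd (sub_eq_zero.1 h).symm hαβ
      · exact h
    conv_lhs => rw [hsum (g (b 0))]
    rw [e3, zero_smul, add_zero]
  · have e1 : f (g (b 1)) = β • g (b 1) := by rw [hcomm', h1, map_smul]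
    have e2 : b.repr (f (g (b 1))) 0 = b.repr (β • g (b 1)) 0 := by rw [e1]
    rw [hfx (g (b 1)), repr_comb_zero, map_smul, Finsupp.smul_apply, smul_eq_mul] at e2
    have e3 : b.repr (g (b 1)) 0 = 0 := by
      have e4 : (α - β) * b.repr (g (b 1)) 0 = 0 := by
        rw [sub_mul, ← e2, mul_comm, sub_self]
      rcases mul_eq_zero.1 e4 with h | h
      · exact absurd (sub_eq_zero.1 h) hαβ
      · exact h
    conv_lhs => rw [hsum (g (b 1))]
    rw [e3, zero_smul, zero_add]

/-- The trace-zero endomorphisms commuting with `f` lie on a line. -/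
theorem exists_line_of_commute [Module.Finite k V] (hV : Module.finrank k V = 2)
    (f : Module.End k V) {α β : k}
    (hαβ : α ≠ β) (hf : LinearMap.charpoly f = (X - C α) * (X - C β)) :
    ∃ h : Module.End k V, ∀ g : Module.End k V, LinearMap.trace k V g = 0 → f * g = g * f →
      ∃ a : k, g = a • h := by
  classical
  obtain ⟨b, h0, h1⟩ := exists_eigenbasis hV f hαβ hf
  refine ⟨b.constr k ![b 0, -b 1], fun g htr hcomm => ?_⟩
  obtain ⟨d0, d1⟩ := diag_of_commute f g hαβ b h0 h1 hcomm
  have htr' : b.repr (g (b 0)) 0 + b.repr (g (b 1)) 1 = 0 := by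
    rw [LinearMap.trace_eq_matrix_trace k b, Matrix.trace, Fin.sum_univ_two] at htr
    simpa [Matrix.diag, LinearMap.toMatrix_apply] using htr
  refine ⟨b.repr (g (b 0)) 0, ?_⟩
  apply b.ext
  intro i
  fin_cases i
  · show g (b 0) = _
    rw [LinearMap.smul_apply, Basis.constr_basis]
    simpa using d0
  · show g (b 1) = _
    rw [LinearMap.smul_apply, Basis.constr_basis]
    have e : b.repr (g (b 1)) 1 = - b.repr (g (b 0)) 0 := by
      rw [eq_neg_iff_add_eq_zero, add_comm]
      exact htr'
    rw [d1, e]
    simp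

/-- `#ker T = #coker T` for an endomorphism of a finite module. -/
theorem card_ker_eq_card_quot_range {M : Type} [AddCommGroup M] [Module k M] [Finite M]
    (T : M →ₗ[k] M) :
    Nat.card (LinearMap.ker T) = Nat.card (M ⧸ LinearMap.range T) := by
  have h1 := Submodule.card_eq_card_quotient_mul_card (LinearMap.ker T)
  have h2 := Submodule.card_eq_card_quotient_mul_card (LinearMap.range T)
  have h3 : Nat.card (M ⧸ LinearMap.ker T) = Nat.card (LinearMap.range T) :=
    Nat.card_congr T.quotKerEquivRange.toEquiv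
  rw [h3] at h1
  have hpos : 0 < Nat.card (LinearMap.range T) := Nat.card_pos
  have h4 : Nat.card (LinearMap.range T) * Nat.card (LinearMap.ker T) =
      Nat.card (LinearMap.range T) * Nat.card (M ⧸ LinearMap.range T) := by
    rw [mul_comm, ← h1, h2]
  exact Nat.eq_of_mul_eq_mul_left hpos h4

end Fermat.Agent.S56.TWLin
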