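/-
S56, wall W3a (helper67), file 4: the place `primeLocalPlace q` lies over `q`.
-/
import Fermat.Agent.Lib.LocalGalois.Range
import Fermat.Prelude.Def_ExtEndgame_ProductionDatum

set_option autoImplicit false

namespace Fermat.Agent.S56

open ExtCitation

/-- `padicPlace q` lies over `q`. -/
theorem padicPlace_liesOverPrime (q : ℕ) [Fact q.Prime] :
    (padicPlace q).LiesOverPrime q := by
  have hq : q.Prime := Fact.out
  have hq1 : (1 : ℝ) < q := by exact_mod_cast hq.one_lt
  have hnorm : ‖padicEmbedding q ((q : AlgebraicClosure ℚ))‖ = (q : ℝ)⁻¹ := by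
    have := Fermat.Agent.LocalGalois.norm_padicEmbedding_pow q 1
    simpa using this
  show ((q : ℕ) : AlgebraicClosure ℚ) ∈ (padicPlace q).nonunits
  rw [ValuationSubring.mem_nonunits_iff_or]
  right
  intro hmem
  rw [mem_padicPlace_iff, ← NNReal.coe_le_coe, coe_nnnorm, NNReal.coe_one, map_inv₀, norm_inv,
    hnorm, inv_inv] at hmem
  linarith

/-- `primeLocalPlace q` lies over `q`. -/
theorem primeLocalPlace_liesOverPrime (q : Nat.Primes) :
    (primeLocalPlace q).LiesOverPrime (q : ℕ) := by
  haveI : Fact (q : ℕ).Prime := ⟨q.2⟩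
  exact padicPlace_liesOverPrime (q : ℕ)

end Fermat.Agent.S56
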