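/-
S56, wall W3a (helper67), file 3: `localBound_TW` from the local tame structure.

`LocalTame q` packages what is needed about the local Galois group at `q` (to be supplied by the
shared file on tame inertia): a set `I` of elements mapping to the inertia group at
`primeLocalPlace q`, an element `φ` mapping to a Frobenius element, such that the local group is
generated by `φ` and `I` modulo every level, and such that every homomorphism `χ` of the local
group, trivial on a level, whose values on `I` have order prime to `q`, has `χ(I)` inside a cyclic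
group `⟨χ τ₀⟩`, `τ₀ ∈ I`, with `χ (φ τ φ⁻¹) = χ τ ^ q`.

`localBound_TW_of` : `LocalTame q` implies the statement of `localBound_TW`.
-/
import Fermat.Agent.S56.Local.Walls
import Fermat.Agent.S56.W3.TW.Count
import Fermat.Agent.S56.W3.TW.LinAlg
import Fermat.Agent.F4.BR.LevelsBridge

set_option autoImplicit false

namespace Fermat.Agent.S56

open Fermat.Agent.F4 ExtCitation Polynomial

/-- The local tame structure at `q`. -/
def LocalTame (q : Nat.Primes) : Prop :=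
  (primeLocalPlace q).LiesOverPrime (q : ℕ) ∧
  ∃ (I : Set (primeLocalGaloisGroup q)) (φ : primeLocalGaloisGroup q),
    (∀ τ ∈ I, primeLocalToGlobal q τ ∈ (primeLocalPlace q).inertiaSubgroupIn ℚ) ∧
    (primeLocalPlace q).IsFrobeniusAt (primeLocalToGlobal q φ) (q : ℕ) ∧
    (∀ U ∈ levelsAll.sets, ∀ g : primeLocalGaloisGroup q,
      ∃ (n : ℕ) (τ : primeLocalGaloisGroup q), τ ∈ I ∧
        primeLocalToGlobal q (g⁻¹ * (φ ^ n * τ)) ∈ U) ∧
    ∀ (H : Type) [Group H] (χ : primeLocalGaloisGroup q →* H),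
      (∃ U ∈ levelsAll.sets, U.comap (primeLocalToGlobal q) ≤ χ.ker) →
      (∀ σ ∈ I, (orderOf (χ σ)).Coprime (q : ℕ)) →
      (∃ τ₀ ∈ I, ∀ σ ∈ I, ∃ n : ℕ, χ σ = χ τ₀ ^ n) ∧
        ∀ τ ∈ I, χ (φ * τ * φ⁻¹) = χ τ ^ (q : ℕ)

section

variable {k : Type} [Field k]

/-- The action on `ad⁰`. -/
theorem ad0_ρ_val (ρbar : ResidualGaloisRep k) (g : GQ) (m : ad0 ρbar) :
    ((ad0 ρbar).ρ g m : ↥(ad0Sub ρbar)).1 =
      ρbar.ρ g * (m : ↥(ad0Sub ρbar)).1 * ρbar.ρ g⁻¹ := rfl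

theorem ad0_ρ_eq_self_of_eq_one (ρbar : ResidualGaloisRep k) {g : GQ} (hg : ρbar.ρ g = 1)
    (m : ad0 ρbar) : (ad0 ρbar).ρ g m = m := by
  apply Subtype.ext
  rw [ad0_ρ_val, map_inv_eq_one_of_eq_one hg, hg, one_mul, mul_one]
  where
    map_inv_eq_one_of_eq_one {g : GQ} (hg : ρbar.ρ g = 1) : ρbar.ρ g⁻¹ = 1 := by
      have h : ρbar.ρ g⁻¹ * ρbar.ρ g = 1 := by rw [← map_mul, inv_mul_cancel, map_one]
      rwa [hg, mul_one] at h

/-- A global level on which `ρbar` is trivial. -/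
theorem exists_level_ρ_eq_one (ρbar : ResidualGaloisRep k) :
    ∃ U ∈ levelsAll.sets, ∀ g ∈ U, ρbar.ρ g = 1 := by
  obtain ⟨L, hL, hρ⟩ := ρbar.factorsThroughFiniteLevel
  obtain ⟨F', hle, hfin, hst, -⟩ := br_exists_stable L hL
  refine ⟨F'.fixingSubgroup, ⟨F', hfin, hst, rfl⟩, fun g hg => hρ g fun x hx => ?_⟩
  exact (IntermediateField.mem_fixingSubgroup_iff F' g).1 hg x (hle hx)

/-- An element of `ad⁰` fixed by `g` commutes with `ρbar g`. -/
theorem commute_of_ad0_fixed (ρbar : ResidualGaloisRep k) (g : GQ) (m : ad0 ρbar)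
    (hm : (ad0 ρbar).ρ g m = m) :
    ρbar.ρ g * (m : ↥(ad0Sub ρbar)).1 = (m : ↥(ad0Sub ρbar)).1 * ρbar.ρ g := by
  have h1 := congrArg Subtype.val hm
  rw [ad0_ρ_val] at h1
  have h2 : ρbar.ρ g⁻¹ * ρbar.ρ g = 1 := by rw [← map_mul, inv_mul_cancel, map_one]
  calc ρbar.ρ g * (m : ↥(ad0Sub ρbar)).1
      = ρbar.ρ g * (m : ↥(ad0Sub ρbar)).1 * (ρbar.ρ g⁻¹ * ρbar.ρ g) := by rw [h2, mul_one]
    _ = (ρbar.ρ g * (m : ↥(ad0Sub ρbar)).1 * ρbar.ρ g⁻¹) * ρbar.ρ g := by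
        simp only [mul_assoc]
    _ = (m : ↥(ad0Sub ρbar)).1 * ρbar.ρ g := by rw [h1]

/-- If `ρbar g` has two distinct eigenvalues, the elements of `ad⁰` fixed by `g` form at most a
line. -/
theorem card_ad0_fixed_le [Finite k] (ρbar : ResidualGaloisRep k) (g : GQ) {α β : k}
    (hαβ : α ≠ β) (hg : LinearMap.charpoly (ρbar.ρ g) = (X - C α) * (X - C β)) :
    Nat.card (LinearMap.ker ((ad0 ρbar).ρ g - 1)) ≤ Nat.card k := by
  obtain ⟨h, hh⟩ := TWLin.exists_line_of_commute ρbar.finrank_eq (ρbar.ρ g) hαβ hg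
  have key : ∀ m : ↥(LinearMap.ker ((ad0 ρbar).ρ g - 1)),
      ∃ a : k, ((m : ad0 ρbar) : ↥(ad0Sub ρbar)).1 = a • h := by
    intro m
    have hm : (ad0 ρbar).ρ g (m : ad0 ρbar) = (m : ad0 ρbar) := by
      have := m.2
      rw [LinearMap.mem_ker, LinearMap.sub_apply, Module.End.one_apply, sub_eq_zero] at this
      exact this
    exact hh _ ((m : ad0 ρbar) : ↥(ad0Sub ρbar)).2 (commute_of_ad0_fixed ρbar g _ hm)
  choose a ha using key
  refine Nat.card_le_card_of_injective a fun m m' hmm' => ?_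
  apply Subtype.ext
  apply Subtype.ext
  rw [ha m, ha m', hmm']

end

/-- **W3-TW from the local tame structure.** -/
theorem localBound_TW_of {k : Type} [Field k] [Finite k] (p : ℕ) [Fact p.Prime]
    (hpk : (p : k) = 0) (ρbar : ResidualGaloisRep k) (S : Finset ℕ) (q : Nat.Primes)
    (hT : LocalTame q)
    (hq : IsTWPrime p 0 ρbar S (q : ℕ)) (hunr : ρbar.IsUnramifiedAt (q : ℕ)) :
    Finite (H1loc (ad0 ρbar) q) ∧
      Nat.card (H1loc (ad0 ρbar) q) ≤ Nat.card k * Nat.card (H0loc (ad0 ρbar) q) := by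
  classical
  obtain ⟨hlies, I, φ, hIin, hφ, hgen, htame⟩ := hT
  have hp : p.Prime := Fact.out
  have hq2 : 2 ≤ (q : ℕ) := q.2.two_le
  -- `p ∣ q - 1`
  have hdvd : p ∣ (q : ℕ) - 1 := by simpa using hq.1.2.2
  have hpq : p.Coprime (q : ℕ) := by
    rw [Nat.coprime_primes hp q.2]
    intro h
    have h1 : p ≤ (q : ℕ) - 1 := Nat.le_of_dvd (by omega) hdvd
    omega
  have hqk : (((q : ℕ) : ℕ) : k) = 1 := by
    obtain ⟨c, hc⟩ := hdvd
    have h1 : (q : ℕ) = p * c + 1 := by omega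
    rw [h1]
    push_cast
    rw [hpk, zero_mul, zero_add]
  -- the eigenvalues of Frobenius
  obtain ⟨α, β, hαβ, hcp⟩ := hq.2 (primeLocalPlace q) hlies (primeLocalToGlobal q φ) hφ
  -- finiteness of `ad⁰`
  haveI : Finite ρbar.V := Module.finite_of_finite k
  haveI : Finite (Module.End k ρbar.V) := Module.finite_of_finite k
  haveI hfinM : Finite (ad0 ρbar) := by
    show Finite ↥(ad0Sub ρbar)
    infer_instance
  haveI : Finite (locRep (ad0 ρbar) q) := hfinM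
  -- the hypotheses of the counting lemma
  have hI : ∀ τ ∈ I, ∀ m : locRep (ad0 ρbar) q, (locRep (ad0 ρbar) q).ρ τ m = m := by
    intro τ hτ m
    exact ad0_ρ_eq_self_of_eq_one ρbar (hunr _ hlies _ (hIin τ hτ)) m
  obtain ⟨U₀, hU₀, hU₀ρ⟩ := exists_level_ρ_eq_one ρbar
  have hsm : ∃ U ∈ (locLevelsAll q).sets, ∀ g ∈ U, ∀ m : locRep (ad0 ρbar) q,
      (locRep (ad0 ρbar) q).ρ g m = m :=
    ⟨U₀.comap (primeLocalToGlobal q), ⟨U₀, hU₀, rfl⟩, fun g hg m =>
      ad0_ρ_eq_self_of_eq_one ρbar (hU₀ρ _ hg) m⟩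
  have hgen' : ∀ U ∈ (locLevelsAll q).sets, ∀ g : primeLocalGaloisGroup q,
      ∃ (n : ℕ) (τ : primeLocalGaloisGroup q), τ ∈ I ∧ g⁻¹ * (φ ^ n * τ) ∈ U := by
    rintro _ ⟨U, hU, rfl⟩ g
    exact hgen U hU g
  have htame' : ∀ (H : Type) [Group H] (χ : primeLocalGaloisGroup q →* H),
      (∃ U ∈ (locLevelsAll q).sets, U ≤ χ.ker) →
      (∀ σ ∈ I, (orderOf (χ σ)).Coprime (q : ℕ)) →
      (∃ τ₀ ∈ I, ∀ σ ∈ I, ∃ n : ℕ, χ σ = χ τ₀ ^ n) ∧
        ∀ τ ∈ I, χ (φ * τ * φ⁻¹) = χ τ ^ (q : ℕ) := by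
    intro H _ χ hlev hcop
    obtain ⟨_, ⟨U, hU, rfl⟩, hle⟩ := hlev
    exact htame H χ ⟨U, hU, hle⟩ hcop
  obtain ⟨hfin, hcard⟩ := TWCount.card_H1sm_le (𝓤 := locLevelsAll q)
    (M := locRep (ad0 ρbar) q) hp hpq hpk hqk I φ hI hsm hgen' htame'
  refine ⟨hfin, hcard.trans ?_⟩
  -- `#coker = #ker`
  rw [← TWLin.card_ker_eq_card_quot_range]
  -- `#ker ≤ |k|`
  have h1 : Nat.card (LinearMap.ker ((locRep (ad0 ρbar) q).ρ φ - 1)) ≤ Nat.card k :=
    card_ad0_fixed_le ρbar (primeLocalToGlobal q φ) hαβ hcp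
  -- `ker ⊆ H⁰`
  have h2 : Nat.card (LinearMap.ker ((locRep (ad0 ρbar) q).ρ φ - 1)) ≤
      Nat.card (H0loc (ad0 ρbar) q) := by
    have hsub : ∀ m : ad0 ρbar, m ∈ LinearMap.ker ((locRep (ad0 ρbar) q).ρ φ - 1) →
        m ∈ H0loc (ad0 ρbar) q := by
      intro m hm g
      have hm' : (ad0 ρbar).ρ (primeLocalToGlobal q φ) m = m := by
        rw [LinearMap.mem_ker, LinearMap.sub_apply, Module.End.one_apply, sub_eq_zero] at hm
        exact hm
      obtain ⟨n, τ, hτ, hw⟩ := hgen U₀ hU₀ g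
      have hpow : ∀ n : ℕ, (ad0 ρbar).ρ (primeLocalToGlobal q φ ^ n) m = m := by
        intro n
        induction n with
        | zero => rw [pow_zero, map_one, Module.End.one_apply]
        | succ n ih => rw [pow_succ, map_mul, Module.End.mul_apply, hm', ih]
      have e1 : (ad0 ρbar).ρ (primeLocalToGlobal q (g⁻¹ * (φ ^ n * τ))) m = m :=
        ad0_ρ_eq_self_of_eq_one ρbar (hU₀ρ _ hw) m
      have e2 : (ad0 ρbar).ρ (primeLocalToGlobal q τ) m = m := hI τ hτ m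
      have e3 : primeLocalToGlobal q g =
          primeLocalToGlobal q φ ^ n * primeLocalToGlobal q τ *
            (primeLocalToGlobal q (g⁻¹ * (φ ^ n * τ)))⁻¹ := by
        rw [← map_pow, ← map_mul, ← map_inv, ← map_mul]
        congr 1
        group
      have e4 : (ad0 ρbar).ρ (primeLocalToGlobal q (g⁻¹ * (φ ^ n * τ)))⁻¹ m = m := by
        conv_lhs => rw [← e1]
        rw [← Module.End.mul_apply, ← map_mul, inv_mul_cancel, map_one, Module.End.one_apply]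
      rw [e3, map_mul, map_mul, Module.End.mul_apply, Module.End.mul_apply, e4, e2, hpow]
    exact Nat.card_le_card_of_injective
      (fun m : ↥(LinearMap.ker ((locRep (ad0 ρbar) q).ρ φ - 1)) =>
        (⟨m.1, hsub m.1 m.2⟩ : ↥(H0loc (ad0 ρbar) q)))
      (fun m m' h => Subtype.ext (by
        have h' := congrArg Subtype.val h
        exact h'))
  exact Nat.mul_le_mul h1 h2

end Fermat.Agent.S56
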