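/-
S56, wall W3a (helper67), file 6: the local tame structure `LocalTame q` holds for every prime `q`.

* T1 = `primeLocalPlace_liesOverPrime` (TW/Lies.lean);
* T2 = `local_tame` (helper10, S56/W3/Tame.lean);
* T3 = `TWGen.exists_frob_gen` (TW/Gen.lean).
-/
import Fermat.Agent.S56.W3.TW.Asm
import Fermat.Agent.S56.W3.TW.Gen
import Fermat.Agent.S56.W3.Tame

set_option autoImplicit false

namespace Fermat.Agent.S56

open Fermat.Agent.F4 ExtCitation

/-- The local tame structure at `q`, for every prime `q`. -/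
theorem localTame (q : Nat.Primes) : LocalTame q := by
  have hA : (primeLocalPlace q).LiesOverPrime (q : ℕ) := primeLocalPlace_liesOverPrime q
  obtain ⟨φ, hφ, hgen⟩ := TWGen.exists_frob_gen q
  refine ⟨hA, (locInertia q : Set (primeLocalGaloisGroup q)), φ, fun τ hτ => hτ, hφ, ?_, ?_⟩
  · intro U hU g
    obtain ⟨n, τ, hτ, h⟩ := hgen U hU g
    exact ⟨n, τ, hτ, h⟩
  · intro H _ χ hlev hcop
    obtain ⟨h1, h2⟩ := local_tame q hA χ hlev (fun σ hσ => hcop σ hσ)
    refine ⟨?_, fun τ hτ => h2 φ hφ τ hτ⟩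
    obtain ⟨τ₀, hτ₀, h⟩ := h1
    exact ⟨τ₀, hτ₀, fun σ hσ => h σ hσ⟩

end Fermat.Agent.S56
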